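import Fermat.Agent.JTors.Model
import Fermat.Agent.Quick.HeckeEigenform
import Fermat.Agent.GalRep.Attach
import Fermat.Agent.IntegralStructure.HeckeFinite
import Fermat.Agent.S23
import Mathlib.RingTheory.Ideal.AssociatedPrime.Localization
import Mathlib.RingTheory.Support

/-!
# Eigen torsion classes of `J₀(N)` and eigenforms modulo `p`

A congruence class of eigenforms gives an eigen class in `J₀(N)[p]` for the same residual
eigenvalues, and conversely.
-/

set_option autoImplicit false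
set_option linter.style.haveILetI false

open ModularCurve

namespace FLTAgent.LevelLower.Endgame

local notation "Zc" => integralClosure ℤ ℂ

section Abstract

variable {T : Type*} [CommRing T] [Module.Finite ℤ T] {H : Type*} [AddCommGroup H] [Module T H]
  [Module.Finite ℤ H]

/-- A prime above `p` of a ring acting faithfully on a lattice has an eigenvector modulo `p`. -/
theorem exists_eigen_mod_prime (hfaith : ∀ t : T, (∀ h : H, t • h = 0) → t = 0) {p : ℕ}
    (hp : p.Prime) (P₀ : Ideal T) [P₀.IsPrime] (hpP : (p : T) ∈ P₀) :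
    ∃ h : H, (¬ ∃ h', h = p • h') ∧ ∀ t ∈ P₀, ∃ h', t • h = p • h' := by
  haveI : IsScalarTower ℤ T H := AddCommGroup.intIsScalarTower
  haveI : Module.Finite T H := Module.Finite.of_restrictScalars_finite ℤ T H
  haveI : IsNoetherianRing T := isNoetherianRing_iff.mpr (isNoetherian_of_tower ℤ inferInstance)
  haveI : Algebra.IsIntegral ℤ T := Algebra.IsIntegral.of_finite ℤ T
  let I : Ideal T := Ideal.span {(p : T)}
  let Hp := H ⧸ (I • ⊤ : Submodule T H)
  have hann0 : Module.annihilator T H = ⊥ := by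
    refine eq_bot_iff.2 fun t ht => ?_
    rw [Module.mem_annihilator] at ht
    exact (Submodule.mem_bot T).2 (hfaith t ht)
  have hsupp : (⟨P₀, inferInstance⟩ : PrimeSpectrum T) ∈ Module.support T Hp := by
    rw [Module.support_quotient, Module.support_eq_zeroLocus, hann0]
    exact ⟨fun _ hz => (Submodule.mem_bot T).1 hz ▸ P₀.zero_mem,
      fun z hz => (Ideal.span_singleton_le_iff_mem P₀).2 hpP hz⟩
  have hann : Module.annihilator T Hp ≤ P₀ := by
    rw [Module.support_eq_zeroLocus] at hsupp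
    exact hsupp
  have hpAnn : (p : T) ∈ Module.annihilator T Hp := by
    rw [Module.mem_annihilator]
    intro m
    obtain ⟨h, rfl⟩ := Submodule.Quotient.mk_surjective _ m
    rw [← Submodule.Quotient.mk_smul, Submodule.Quotient.mk_eq_zero]
    exact Submodule.smul_mem_smul (Ideal.subset_span rfl) Submodule.mem_top
  have hmin : P₀ ∈ (Module.annihilator T Hp).minimalPrimes := by
    refine ⟨⟨inferInstance, hann⟩, fun Q ⟨hQ, hQann⟩ hQP => ?_⟩
    haveI := hQ
    have hQmax : Q.IsMaximal := by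
      refine Ideal.isMaximal_of_isIntegral_of_isMaximal_comap (R := ℤ) Q
        (Ideal.IsPrime.isMaximal (Ideal.IsPrime.comap _) ?_)
      intro hbot
      have hmem : (p : ℤ) ∈ Q.comap (algebraMap ℤ T) := by
        rw [Ideal.mem_comap, map_natCast]; exact hQann hpAnn
      rw [hbot, Ideal.mem_bot] at hmem
      exact hp.ne_zero (by exact_mod_cast hmem)
    exact (hQmax.eq_of_le (Ideal.IsPrime.ne_top inferInstance) hQP).ge
  obtain ⟨-, m, hm⟩ := isAssociatedPrime_iff.1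
    (Module.associatedPrimes.minimalPrimes_annihilator_subset_associatedPrimes T Hp hmin)
  obtain ⟨h, rfl⟩ := Submodule.Quotient.mk_surjective _ m
  refine ⟨h, ?_, fun t ht => ?_⟩
  · rintro ⟨h', rfl⟩
    refine (inferInstance : P₀.IsPrime).ne_top ((Ideal.eq_top_iff_one _).2 ?_)
    rw [hm, Submodule.mem_colon_singleton, one_smul, Submodule.mem_bot, Submodule.Quotient.mk_eq_zero,
      ← Nat.cast_smul_eq_nsmul T]
    exact Submodule.smul_mem_smul (Ideal.subset_span rfl) Submodule.mem_top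
  · rw [hm, Submodule.mem_colon_singleton, Submodule.mem_bot, ← Submodule.Quotient.mk_smul,
      Submodule.Quotient.mk_eq_zero, Submodule.ideal_span_singleton_smul,
      Submodule.mem_smul_pointwise_iff_exists] at ht
    obtain ⟨h', -, hh'⟩ := ht
    exact ⟨h', by rw [← hh', Nat.cast_smul_eq_nsmul]⟩

end Abstract

variable {N : ℕ} [NeZero N] {p : ℕ} [Fact p.Prime]

/-- An eigenform congruent to `a` modulo a prime above `p` gives an eigen class in `J₀(N)[p]`. -/
theorem exists_eigenTorsion {f : CuspForm (CongruenceSubgroup.Gamma0 N) 2}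
    (hf : f.IsNormalizedEigenform) (𝔪 : Ideal Zc) [𝔪.IsMaximal] (hpm : (p : Zc) ∈ 𝔪)
    (a : ℕ → ℕ) (S₁ : Set ℕ)
    (ha : ∀ ℓ : ℕ, ℓ.Prime → ¬ ℓ ∣ N → ℓ ∉ S₁ →
      ∃ z : Zc, (z : ℂ) = ModularFormClass.qCoeff f ℓ ∧ z - (a ℓ : Zc) ∈ 𝔪) :
    ∃ x : JZero N, x ≠ 0 ∧ p • x = 0 ∧
      ∀ (ℓ : ℕ) (hℓ : ℓ.Prime), ¬ ℓ ∣ N → ℓ ∉ S₁ →
        heckeOperatorBar N ⟨ℓ, hℓ⟩ x = a ℓ • x := by
  haveI : NeZero p := ⟨(Fact.out : p.Prime).ne_zero⟩
  let M := JTors.torsionModel N p
  haveI := FLTAgent.IntegralStructure.moduleFinite_heckeAlgebra (N := N) 2 (GalRep.levelPrimes N)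
  obtain ⟨θ, hθ⟩ := GalRep.exists_integral_char hf (GalRep.levelPrimes N)
  letI : Module (GalRep.awayHecke N) M.H := Module.compHom M.H M.act
  let P₀ : Ideal (GalRep.awayHecke N) := 𝔪.comap θ
  haveI : P₀.IsPrime := Ideal.IsPrime.comap θ
  have hpP : (p : GalRep.awayHecke N) ∈ P₀ := by rw [Ideal.mem_comap, map_natCast]; exact hpm
  obtain ⟨h, hne, hh⟩ := exists_eigen_mod_prime (H := M.H)
    (fun t ht => M.act_injective ((LinearMap.ext fun h => ht h).trans (map_zero _).symm))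
    (Fact.out : p.Prime) P₀ hpP
  have key : ∀ t ∈ P₀, M.proj 1 (M.act t h) = 0 := fun t ht => by
    obtain ⟨h', hh'⟩ := hh t ht
    rw [M.proj_eq_zero_iff]
    exact ⟨h', by rw [pow_one]; exact hh'⟩
  refine ⟨M.proj 1 h, fun h0 => ?_, ?_, fun ℓ hℓ hℓN hℓS => ?_⟩
  · rw [M.proj_eq_zero_iff, pow_one] at h0
    exact hne h0
  · rw [← map_nsmul]
    exact (M.proj_eq_zero_iff 1 _).2 ⟨h, by rw [pow_one]⟩
  · obtain ⟨z, hz, hzm⟩ := ha ℓ hℓ hℓN hℓS
    have hmem : GalRep.awayT N hℓ hℓN - (a ℓ : GalRep.awayHecke N) ∈ P₀ := by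
      rw [Ideal.mem_comap, map_sub, map_natCast]
      obtain rfl : θ (GalRep.awayT N hℓ hℓN) = z := Subtype.ext ((hθ ℓ hℓ hℓN _).trans hz.symm)
      exact hzm
    have h1 := key _ hmem
    rw [map_sub, map_natCast, LinearMap.sub_apply, map_sub, M.proj_act, sub_eq_zero] at h1
    rw [h1, show ((a ℓ : Module.End ℤ M.H)) h = a ℓ • h from Module.End.natCast_apply (a ℓ) h,
      map_nsmul]

/-- An eigen class in `J₀(N)[p]` gives an eigenform congruent to its eigenvalues. -/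
theorem exists_eigenform_of_eigenTorsion {x : JZero N} (hx : x ≠ 0) (hpx : p • x = 0)
    (a : ℕ → ℕ) (S₁ : Set ℕ)
    (hT : ∀ (ℓ : ℕ) (hℓ : ℓ.Prime), ¬ ℓ ∣ N → ℓ ∉ S₁ →
      heckeOperatorBar N ⟨ℓ, hℓ⟩ x = a ℓ • x) :
    ∃ (f : CuspForm (CongruenceSubgroup.Gamma0 N) 2) (𝔪 : Ideal Zc),
      f.IsNormalizedEigenform ∧ 𝔪.IsMaximal ∧ (p : Zc) ∈ 𝔪 ∧
      ∀ ℓ : ℕ, ℓ.Prime → ¬ ℓ ∣ N → ℓ ∉ S₁ →
        ∃ z : Zc, (z : ℂ) = ModularFormClass.qCoeff f ℓ ∧ z - (a ℓ : Zc) ∈ 𝔪 := by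
  haveI : NeZero p := ⟨(Fact.out : p.Prime).ne_zero⟩
  let M := JTors.torsionModel N p
  obtain ⟨h, rfl⟩ := M.exists_proj 1 x (by rwa [pow_one])
  haveI := FLTAgent.IntegralStructure.moduleFinite_heckeAlgebra (N := N) 2 (GalRep.levelPrimes N)
  haveI := FLTAgent.IntegralStructure.moduleFinite_heckeAlgebra (N := N) 2 (∅ : Set ℕ)
  set T := GalRep.awayHecke N
  let T0 := CuspForm.heckeAlgebra N 2 (∅ : Set ℕ)
  let J : Ideal T :=
    { carrier := {t | M.proj 1 (M.act t h) = 0}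
      add_mem' := fun {s t} hs ht => by
        simp only [Set.mem_ofPred_eq] at hs ht ⊢
        rw [map_add, LinearMap.add_apply, map_add, hs, ht, add_zero]
      zero_mem' := by simp
      smul_mem' := fun s t ht => by
        simp only [Set.mem_ofPred_eq] at ht ⊢
        obtain ⟨h', hh'⟩ := (M.proj_eq_zero_iff 1 _).1 ht
        rw [smul_eq_mul, map_mul, Module.End.mul_apply, hh', map_nsmul]
        exact (M.proj_eq_zero_iff 1 _).2 ⟨_, rfl⟩ }
  have hJ : J ≠ ⊤ := fun htop => hx <| by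
    have h1 : (1 : T) ∈ J := htop ▸ Submodule.mem_top
    simpa [J] using h1
  have hpJ : (p : T) ∈ J := by
    show M.proj 1 (M.act (p : T) h) = 0
    rw [map_natCast, Module.End.natCast_apply]
    exact (M.proj_eq_zero_iff 1 _).2 ⟨h, by rw [pow_one]⟩
  obtain ⟨P₀, hP₀, hJP⟩ := Ideal.exists_le_maximal J hJ
  have hle : T ≤ T0 := CuspForm.heckeAlgebra_mono (Set.empty_subset _)
  letI : Algebra T T0 := (Subalgebra.inclusion hle).toRingHom.toAlgebra
  haveI : IsScalarTower ℤ T T0 := IsScalarTower.of_algebraMap_eq' (RingHom.ext_int _ _)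
  haveI : Algebra.IsIntegral T T0 := Algebra.IsIntegral.tower_top ℤ
  obtain ⟨Q, hQ, hQP⟩ := Ideal.exists_ideal_over_maximal_of_isIntegral (S := T0) P₀ fun t ht => by
    have : t = 0 := Subalgebra.inclusion_injective hle (ht.trans (map_zero _).symm)
    exact this ▸ P₀.zero_mem
  haveI := hQ
  obtain ⟨f, hf, χ, 𝔪, h𝔪, hcomap, hχT, -⟩ :=
    Quick.exists_eigenform_of_prime (Fermat.Agent.S23.result N) Q
  have hto : ∀ t ∈ J, χ (algebraMap T T0 t) ∈ 𝔪 := fun t ht => by
    have h1 : t ∈ Q.comap (algebraMap T T0) := hQP.symm ▸ hJP ht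
    rw [Ideal.mem_comap, ← hcomap, Ideal.mem_comap] at h1
    exact h1
  refine ⟨f, 𝔪, hf, h𝔪, by simpa using hto _ hpJ, fun ℓ hℓ hℓN hℓS => ?_⟩
  refine ⟨_, hχT ℓ hℓ hℓN, ?_⟩
  have hmem : GalRep.awayT N hℓ hℓN - (a ℓ : T) ∈ J := by
    show M.proj 1 (M.act (GalRep.awayT N hℓ hℓN - (a ℓ : T)) h) = 0
    rw [map_sub, map_natCast, LinearMap.sub_apply, map_sub, M.proj_act, hT ℓ hℓ hℓN hℓS,
      Module.End.natCast_apply, map_nsmul, sub_self]
  have h2 := hto _ hmem
  rw [map_sub, map_natCast, map_sub, map_natCast] at h2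
  exact h2

end FLTAgent.LevelLower.Endgame
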