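import Fermat.Agent.LevelLower.Endgame.Models
import Fermat.Agent.LevelLower.Endgame.EigenTorsion

/-!
# Residual modularity as an eigen class in `J₀(N)[p]`

The eigenvalues are the traces of the mod `p` representation at Frobenius elements.
-/

set_option autoImplicit false
set_option linter.style.haveILetI false

open WeierstrassCurve Polynomial
open scoped WeierstrassCurve.Affine

namespace FLTAgent.LevelLower.Endgame

local notation "Qbar" => AlgebraicClosure ℚ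
local notation "Γℚ" => AlgebraicClosure ℚ ≃ₐ[ℚ] AlgebraicClosure ℚ
local notation "Zc" => integralClosure ℤ ℂ

variable {W : WeierstrassCurve ℤ} (hΔ : W.Δ ≠ 0) (p : ℕ) [Fact p.Prime]

/-- The matrices of the mod `p` representation of a curve. -/
noncomputable def torsMat : Γℚ →* Matrix (Fin 2) (Fin 2) (ZMod p) :=
  Carayol.resMat (LevelDrop.torsRep hΔ p)

theorem trace_torsMat (σ : Γℚ) :
    (torsMat hΔ p σ).trace = -(LinearMap.charpoly ((LevelDrop.torsRep hΔ p).ρ σ)).coeff 1 :=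
  LevelDrop.trace_resMat (LevelDrop.torsRep hΔ p) σ

theorem det_torsMat (σ : Γℚ) :
    (torsMat hΔ p σ).det = (LinearMap.charpoly ((LevelDrop.torsRep hΔ p).ρ σ)).coeff 0 := by
  rw [LevelDrop.coeff_zero_charpoly]
  exact LinearMap.det_toMatrix (Carayol.resBasis (LevelDrop.torsRep hΔ p)) _

theorem exists_fixing_torsMat_eq_one :
    ∃ L : IntermediateField ℚ Qbar, FiniteDimensional ℚ L ∧
      ∀ σ : Γℚ, (∀ x ∈ L, σ x = x) → torsMat hΔ p σ = 1 := by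
  obtain ⟨L, hL, hfix⟩ := (LevelDrop.torsRep hΔ p).factorsThroughFiniteLevel
  exact ⟨L, hL, fun σ hσ => by
    show Carayol.matHom (Carayol.resBasis (LevelDrop.torsRep hΔ p)) (LevelDrop.torsRep hΔ p).ρ σ = 1
    rw [Carayol.matHom_apply, hfix σ hσ, LinearMap.toMatrix_one]⟩

theorem torsMat_frobenius {ℓ : ℕ} (hℓ : ℓ.Prime) (hgood : W.IsGoodPrimeFor ℓ) (hℓp : ℓ ≠ p)
    (A : ValuationSubring Qbar) (hA : A.LiesOverPrime ℓ) (σ : Γℚ) (hσ : A.IsFrobeniusAt σ ℓ) :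
    (torsMat hΔ p σ).trace = (W.apOfModel ℓ : ZMod p) ∧ (torsMat hΔ p σ).det = (ℓ : ZMod p) := by
  refine ⟨(trace_torsMat hΔ p σ).trans (trace_torsRep_frobenius hΔ hℓ hgood hℓp A hA σ hσ), ?_⟩
  rw [det_torsMat, LevelDrop.charpoly_torsRep_frobenius hΔ p hℓ hgood hℓp A hA σ hσ]
  simp [coeff_X_pow]

/-- The trace of `W[p]` at some Frobenius element above `ℓ`. -/
noncomputable def frobTrace (ℓ : ℕ) : ℕ :=
  if h : ℓ.Prime then
    (torsMat hΔ p (Frobenius.exists_liesOverPrime_isFrobeniusAt h).choose_spec.choose).trace.val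
  else 0

/-- A congruence with an eigenform at almost all primes prescribes the traces and determinants of
`W[p]` at every Frobenius element off the level and `p`. -/
theorem torsMat_of_congr {N : ℕ} [NeZero N] {f : CuspForm (CongruenceSubgroup.Gamma0 N) 2}
    (hf : f.IsNormalizedEigenform) (𝔪 : Ideal Zc) [h𝔪 : 𝔪.IsMaximal] (hpm : (p : Zc) ∈ 𝔪)
    (S₁ : Finset ℕ)
    (hcong : ∀ ℓ : ℕ, ℓ.Prime → W.IsGoodPrimeFor ℓ → ¬ ℓ ∣ N → ℓ ≠ p → ℓ ∉ S₁ →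
      ∃ a : Zc, (a : ℂ) = ModularFormClass.qCoeff f ℓ ∧
        a - ((W.apOfModel ℓ : ℤ) : Zc) ∈ 𝔪)
    {ℓ : ℕ} (hℓ : ℓ.Prime) (hℓN : ¬ ℓ ∣ N) (hℓp : ℓ ≠ p) :
    (∃ z : Zc, (z : ℂ) = ModularFormClass.qCoeff f ℓ ∧ z - (frobTrace hΔ p ℓ : Zc) ∈ 𝔪) ∧
      ∀ A : ValuationSubring Qbar, A.LiesOverPrime ℓ → ∀ σ : Γℚ, A.IsFrobeniusAt σ ℓ →
        (torsMat hΔ p σ).trace = (frobTrace hΔ p ℓ : ZMod p) ∧
          (torsMat hΔ p σ).det = (ℓ : ZMod p) := by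
  have hp : p.Prime := Fact.out
  letI := Ideal.Quotient.field 𝔪
  set φ : Zc →+* Zc ⧸ 𝔪 := Ideal.Quotient.mk 𝔪 with hφ
  haveI : CharP (Zc ⧸ 𝔪) p := (CharP.charP_iff_prime_eq_zero hp).mpr (by
    rw [← map_natCast φ, Ideal.Quotient.eq_zero_iff_mem]; exact hpm)
  obtain ⟨ρ, ⟨L, hL, hfix⟩, hfrob, -⟩ := GalRep.exists_matRep_of_eigenform GalRep.frobeniusDense
    (fun N _ p _ S hS => GalRep.matModel_of_specializations GalRep.specializationsExist N p S hS)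
    hf (p := p) φ
  let η : ZMod p →+* Zc ⧸ 𝔪 := ZMod.castHom dvd_rfl _
  have key : ∀ g, ((ρ g).trace, (ρ g).det) =
      (η (torsMat hΔ p g).trace, η (torsMat hΔ p g).det) := by
    refine LevelDrop.eq_of_frobenius GalRep.frobeniusDense _ _ ⟨L, hL, fun g σ hag => ?_⟩ ?_
      (insert p ((N * W.Δ.natAbs).primeFactors ∪ S₁)) fun l hl hlT A hA σ hσ => ?_
    · simp only []
      rw [show σ = g * (g⁻¹ * σ) by group, map_mul,
        hfix _ (GalRep.fixing_of_agree hag).1, mul_one]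
    · obtain ⟨L', hL', hfix'⟩ := exists_fixing_torsMat_eq_one hΔ p
      refine ⟨L', hL', fun g σ hag => ?_⟩
      simp only []
      rw [show σ = g * (g⁻¹ * σ) by group, map_mul,
        hfix' _ (GalRep.fixing_of_agree hag).1, mul_one]
    · simp only [Finset.mem_insert, Finset.mem_union, Nat.mem_primeFactors, not_or] at hlT
      have hne : N * W.Δ.natAbs ≠ 0 := mul_ne_zero (NeZero.ne N) (Int.natAbs_ne_zero.2 hΔ)
      have hlN : ¬ l ∣ N := fun h => hlT.2.1 ⟨hl, h.mul_right _, hne⟩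
      have hgood : W.IsGoodPrimeFor l := fun h =>
        hlT.2.1 ⟨hl, (Int.natCast_dvd.1 h).mul_left _, hne⟩
      obtain ⟨a, ha, htr, hdet⟩ := hfrob l hl hlN hlT.1 A hA σ hσ
      obtain ⟨b, hb, hbm⟩ := hcong l hl hgood hlN hlT.1 hlT.2.2
      obtain rfl : b = a := Subtype.ext (hb.trans ha.symm)
      obtain ⟨h1, h2⟩ := torsMat_frobenius hΔ p hl hgood hlT.1 A hA σ hσ
      rw [htr, hdet, h1, h2, map_intCast, map_natCast, hφ, Ideal.Quotient.eq.2 hbm, map_intCast]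
  have main : ∀ A : ValuationSubring Qbar, A.LiesOverPrime ℓ → ∀ σ : Γℚ, A.IsFrobeniusAt σ ℓ →
      ∃ a : Zc, (a : ℂ) = ModularFormClass.qCoeff f ℓ ∧
        η (torsMat hΔ p σ).trace = φ a ∧ η (torsMat hΔ p σ).det = η (ℓ : ZMod p) := by
    intro A hA σ hσ
    obtain ⟨a, ha, htr, hdet⟩ := hfrob ℓ hℓ hℓN hℓp A hA σ hσ
    obtain ⟨h1, h2⟩ := Prod.mk.inj (key σ)
    exact ⟨a, ha, h1.symm.trans htr, by rw [← h2, hdet, map_natCast]⟩
  have hch := (Frobenius.exists_liesOverPrime_isFrobeniusAt hℓ).choose_spec.choose_spec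
  obtain ⟨a, ha, htr, -⟩ := main _ hch.1 _ hch.2
  have hft : (frobTrace hΔ p ℓ : ZMod p) =
      (torsMat hΔ p
        (Frobenius.exists_liesOverPrime_isFrobeniusAt hℓ).choose_spec.choose).trace := by
    rw [frobTrace, dif_pos hℓ, ZMod.natCast_val, ZMod.cast_id]
  rw [← hft, map_natCast] at htr
  refine ⟨⟨a, ha, Ideal.Quotient.eq.1 ?_⟩, fun A hA σ hσ => ?_⟩
  · rw [map_natCast, htr]
  obtain ⟨b, hb, htr', hdet'⟩ := main A hA σ hσ
  obtain rfl : b = a := Subtype.ext (hb.trans ha.symm)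
  exact ⟨η.injective (by rw [map_natCast, htr', htr]), η.injective hdet'⟩

variable {p}

/-- Traces and determinants of `W[p]` off a level of residual modularity and `p`. -/
theorem torsMat_of_isResiduallyModularOfLevel {N : ℕ} [NeZero N]
    (h : W.IsResiduallyModularOfLevel p N) {ℓ : ℕ} (hℓ : ℓ.Prime) (hℓN : ¬ ℓ ∣ N) (hℓp : ℓ ≠ p)
    (A : ValuationSubring Qbar) (hA : A.LiesOverPrime ℓ) (σ : Γℚ) (hσ : A.IsFrobeniusAt σ ℓ) :
    (torsMat hΔ p σ).trace = (frobTrace hΔ p ℓ : ZMod p) ∧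
      (torsMat hΔ p σ).det = (ℓ : ZMod p) := by
  obtain ⟨f, 𝔪, hf, h𝔪, hpm, hcong⟩ := h
  exact (torsMat_of_congr hΔ p hf 𝔪 hpm ∅ (fun l hl hg hN hp _ => hcong l hl hg hN hp)
    hℓ hℓN hℓp).2 A hA σ hσ

/-- Residual modularity gives an eigen class in `J₀(N)[p]`. -/
theorem exists_eigenTorsion_of_isResiduallyModularOfLevel {N : ℕ} [NeZero N]
    (h : W.IsResiduallyModularOfLevel p N) :
    ∃ x : ModularCurve.JZero N, x ≠ 0 ∧ p • x = 0 ∧ ∀ (ℓ : ℕ) (hℓ : ℓ.Prime), ¬ ℓ ∣ N → ℓ ≠ p →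
      ModularCurve.heckeOperatorBar N ⟨ℓ, hℓ⟩ x = frobTrace hΔ p ℓ • x := by
  obtain ⟨f, 𝔪, hf, h𝔪, hpm, hcong⟩ := h
  obtain ⟨x, h1, h2, h3⟩ := exists_eigenTorsion hf 𝔪 hpm (frobTrace hΔ p) {p} fun ℓ hℓ hℓN hℓp =>
    (torsMat_of_congr hΔ p hf 𝔪 hpm ∅ (fun l hl hg hN hp _ => hcong l hl hg hN hp)
      hℓ hℓN hℓp).1
  exact ⟨x, h1, h2, fun ℓ hℓ hℓN hℓp => h3 ℓ hℓ hℓN hℓp⟩

/-- An eigen class in `J₀(M)[p]` with the traces of `W[p]` as eigenvalues off finitely many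
primes gives residual modularity of level `M`. -/
theorem isResiduallyModularOfLevel_of_eigenTorsion {M : ℕ} [NeZero M]
    {x : ModularCurve.JZero M} (hx : x ≠ 0) (hpx : p • x = 0) (S₁ : Finset ℕ)
    (hT : ∀ (ℓ : ℕ) (hℓ : ℓ.Prime), ¬ ℓ ∣ M → ℓ ∉ S₁ →
      ModularCurve.heckeOperatorBar M ⟨ℓ, hℓ⟩ x = frobTrace hΔ p ℓ • x) :
    W.IsResiduallyModularOfLevel p M := by
  obtain ⟨f, 𝔪, hf, h𝔪, hpm, hcong⟩ :=
    exists_eigenform_of_eigenTorsion hx hpx (frobTrace hΔ p) (↑S₁) hT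
  refine ⟨f, 𝔪, hf, h𝔪, hpm, fun ℓ hℓ hgood hℓM hℓp => ?_⟩
  have hint : ∀ l : ℕ, l.Prime → W.IsGoodPrimeFor l → l ≠ p →
      ((frobTrace hΔ p l : Zc) - ((W.apOfModel l : ℤ) : Zc)) ∈ 𝔪 := by
    intro l hl hg hlp
    letI := Ideal.Quotient.field 𝔪
    haveI : CharP (Zc ⧸ 𝔪) p := (CharP.charP_iff_prime_eq_zero Fact.out).mpr (by
      rw [← map_natCast (Ideal.Quotient.mk 𝔪), Ideal.Quotient.eq_zero_iff_mem]; exact hpm)
    have hch := (Frobenius.exists_liesOverPrime_isFrobeniusAt hl).choose_spec.choose_spec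
    have h1 := (torsMat_frobenius hΔ p hl hg hlp _ hch.1 _ hch.2).1
    rw [← Ideal.Quotient.eq, map_natCast, map_intCast]
    have h2 := congrArg (ZMod.castHom (dvd_refl p) (Zc ⧸ 𝔪)) h1
    rw [map_intCast] at h2
    rw [← h2, frobTrace, dif_pos hl, ← map_natCast (ZMod.castHom (dvd_refl p) (Zc ⧸ 𝔪)),
      ZMod.natCast_val, ZMod.cast_id]
  have hcong' : ∀ l : ℕ, l.Prime → W.IsGoodPrimeFor l → ¬ l ∣ M → l ≠ p → l ∉ S₁ →
      ∃ a : Zc, (a : ℂ) = ModularFormClass.qCoeff f l ∧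
        a - ((W.apOfModel l : ℤ) : Zc) ∈ 𝔪 := by
    intro l hl hg hlM hlp hlS
    obtain ⟨z, hz, hzm⟩ := hcong l hl hlM hlS
    refine ⟨z, hz, ?_⟩
    rw [← sub_add_sub_cancel z (frobTrace hΔ p l : Zc) ((W.apOfModel l : ℤ) : Zc)]
    exact add_mem hzm (hint l hl hg hlp)
  obtain ⟨z, hz, hzm⟩ := (torsMat_of_congr hΔ p hf 𝔪 hpm S₁ hcong' hℓ hℓM hℓp).1
  refine ⟨z, hz, ?_⟩
  rw [← sub_add_sub_cancel z (frobTrace hΔ p ℓ : Zc) ((W.apOfModel ℓ : ℤ) : Zc)]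
  exact add_mem hzm (hint ℓ hℓ hgood hℓp)

end FLTAgent.LevelLower.Endgame
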