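import Fermat.Agent.LevelLower.Endgame.Main
import Fermat.Agent.Newform.Raise

/-!
# Removing an unramified prime from a squarefree level prime to `p`
-/

set_option autoImplicit false

open WeierstrassCurve
open scoped WeierstrassCurve.Affine

namespace FLTAgent.LevelLower.Endgame

variable {W : WeierstrassCurve ℤ}

/-- Residual modularity passes to multiples of the level. -/
theorem isResiduallyModularOfLevel_mono {p M N : ℕ} [NeZero N] (h : M ∣ N)
    (hM : W.IsResiduallyModularOfLevel p M) : W.IsResiduallyModularOfLevel p N := by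
  have : NeZero M := ⟨fun e => NeZero.ne N (zero_dvd_iff.mp (e ▸ h))⟩
  obtain ⟨f, 𝔪, hf, h𝔪, hp, hc⟩ := hM
  obtain ⟨g, hg, hgf⟩ := Newform.exists_eigenform_of_dvd h hf
  refine ⟨g, 𝔪, hg, h𝔪, hp, fun ℓ hℓ hgood hℓN hℓp => ?_⟩
  obtain ⟨a, ha, ham⟩ := hc ℓ hℓ hgood (fun hd => hℓN (hd.trans h)) hℓp
  exact ⟨a, ha.trans (hgf ℓ hℓ hℓN).symm, ham⟩

/-- The conclusion of `S38` for `p ≥ 5` and levels prime to `p`. -/
theorem isResiduallyModularOfLevel_div (hΔ : W.Δ ≠ 0) {p : ℕ} [Fact p.Prime]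
    (hmz : MazurPrinciple) (hL : ScalarLowering W p) (hss : W.IsSemistableModel) (hp5 : 5 ≤ p)
    (hirr : W.ModRepIsIrreducible p) {M q : ℕ} (hM : Squarefree M) (hpM : ¬ p ∣ M) (hq : q.Prime)
    (hqM : q ∣ M)
    (hunr : Affine.Point.GaloisRepUnramifiedAt (K := AlgebraicClosure ℚ) ℚ
      (W.map (Int.castRingHom ℚ)) p q)
    (hmod : W.IsResiduallyModularOfLevel p M) : W.IsResiduallyModularOfLevel p (M / q) := by
  classical
  have hex : ∃ N : ℕ, N ∣ M ∧ W.IsResiduallyModularOfLevel p N := ⟨M, dvd_rfl, hmod⟩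
  obtain ⟨hNM, hN⟩ := Nat.find_spec hex
  have hMpos : 0 < M := Nat.pos_of_ne_zero hM.ne_zero
  have hNpos : 0 < Nat.find hex := Nat.pos_of_dvd_of_pos hNM hMpos
  have hqN : ¬ q ∣ Nat.find hex := not_dvd_of_minimal hΔ hmz hL hss hp5 hirr hNpos
    (hM.squarefree_of_dvd hNM) (fun h => hpM (h.trans hNM))
    (fun N hN' hne h' => hne (le_antisymm (Nat.le_of_dvd hNpos hN')
      (Nat.find_min' hex ⟨hN'.trans hNM, h'⟩))) hN hq hunr
  have : NeZero (M / q) := ⟨(Nat.div_pos (Nat.le_of_dvd hMpos hqM) hq.pos).ne'⟩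
  refine isResiduallyModularOfLevel_mono (Nat.Coprime.dvd_of_dvd_mul_left
    ((hq.coprime_iff_not_dvd.2 hqN).symm) ?_) hN
  rw [Nat.mul_div_cancel' hqM]
  exact hNM

end FLTAgent.LevelLower.Endgame
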