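import Fermat.Agent.LevelLower.Endgame.Rep

/-!
# Level lowering for Frey packages away from `p`

At a minimal level `p` does not occur, Mazur's principle makes the representation scalar at every
odd prime of the level, and lowering at such primes removes them.
-/

set_option autoImplicit false
set_option linter.style.haveILetI false

open WeierstrassCurve ModularCurve
open scoped WeierstrassCurve.Affine

namespace FLTAgent.LevelLower.Endgame

local notation "Qbar" => AlgebraicClosure ℚ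
local notation "Γℚ" => AlgebraicClosure ℚ ≃ₐ[ℚ] AlgebraicClosure ℚ

/-- Mazur's principle for the primes `p`, `q` and the level `M`: a system occurring in `J₀(Mq)[p]`
and not in `J₀(M)[p]` is scalar at an unramified `q`. -/
def MazurAt (M q p : ℕ) [NeZero M] [Fact q.Prime] [Fact p.Prime] : Prop :=
  ∀ (ρ : Γℚ →* Matrix (Fin 2) (Fin 2) (ZMod p)),
    Submodule.span (ZMod p) (Set.range ρ) = ⊤ →
    (∃ L : IntermediateField ℚ Qbar, FiniteDimensional ℚ L ∧
      ∀ σ : Γℚ, (∀ x ∈ L, σ x = x) → ρ σ = 1) →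
    ∀ (a : ℕ → ℕ),
      (∀ l : ℕ, l.Prime → ¬ l ∣ M * q * p →
        ∀ A : ValuationSubring Qbar, A.LiesOverPrime l → ∀ σ : Γℚ, A.IsFrobeniusAt σ l →
          (ρ σ).trace = (a l : ZMod p) ∧ (ρ σ).det = (l : ZMod p)) →
      (∀ A : ValuationSubring Qbar, A.LiesOverPrime q →
        ∀ σ ∈ A.inertiaSubgroupIn ℚ, ρ σ = 1) →
      (∃ l : ℕ, l.Prime ∧ ¬ l ∣ M * q * p ∧ (a l : ZMod p) ≠ (l : ZMod p) + 1) →
      (∃ x : JZero (M * q), x ≠ 0 ∧ p • x = 0 ∧ ∀ (l : ℕ) (hl : l.Prime), ¬ l ∣ M * q * p →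
        heckeOperatorBar (M * q) ⟨l, hl⟩ x = a l • x) →
      (∀ x : JZero M, p • x = 0 → (∀ (l : ℕ) (hl : l.Prime), ¬ l ∣ M * q * p →
        heckeOperatorBar M ⟨l, hl⟩ x = a l • x) → x = 0) →
      ∀ A : ValuationSubring Qbar, A.LiesOverPrime q → ∀ σ : Γℚ, A.IsFrobeniusAt σ q →
        ∃ c : ZMod p, (c = (q : ZMod p) ∨ c = -(q : ZMod p)) ∧ ρ σ = c • 1

/-- Mazur's principle for `5 ≤ p`. -/
def MazurPrinciple : Prop :=
  ∀ {M q p : ℕ} [NeZero M] [Fact q.Prime] [Fact p.Prime], q ≠ p → 5 ≤ p → ¬ q ∣ M → Squarefree M →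
    MazurAt M q p

/-- The primes where lowering by deformation theory applies: `W[p]` is unramified, Frobenius is
`±1` and `l ≡ 1 (mod p)`. -/
def IsScalarPrime {W : WeierstrassCurve ℤ} (hΔ : W.Δ ≠ 0) (p : ℕ) [Fact p.Prime] (l : ℕ) : Prop :=
  (l : ZMod p) = 1 ∧
    ∀ A : ValuationSubring Qbar, A.LiesOverPrime l →
      (∀ σ ∈ A.inertiaSubgroupIn ℚ, torsMat hΔ p σ = 1) ∧
        ∀ σ : Γℚ, A.IsFrobeniusAt σ l → torsMat hΔ p σ = 1 ∨ torsMat hΔ p σ = -1

/-- Lowering at scalar primes: there is no scalar prime in a minimal level at whose other primes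
`W[p]` is scalar or ramified. -/
def ScalarLowering (W : WeierstrassCurve ℤ) (p : ℕ) : Prop :=
  ∀ [Fact p.Prime] (hΔ : W.Δ ≠ 0), W.IsSemistableModel → 5 ≤ p → W.ModRepIsIrreducible p →
    ∀ N q : ℕ, 0 < N → Squarefree N → ¬ p ∣ N → q.Prime → q ∣ N → IsScalarPrime hΔ p q →
      (∀ l : ℕ, l.Prime → l ∣ N → IsScalarPrime hΔ p l ∨
        ¬ Affine.Point.GaloisRepUnramifiedAt (K := Qbar) ℚ (W.map (Int.castRingHom ℚ)) p l) →
      (∀ M : ℕ, M ∣ N → M ≠ N → ¬ W.IsResiduallyModularOfLevel p M) →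
      W.IsResiduallyModularOfLevel p N → False

variable {W : WeierstrassCurve ℤ} (hΔ : W.Δ ≠ 0) {p : ℕ} [Fact p.Prime]

/-- The determinant of `W[p]` at a Frobenius element of any prime `l ≠ p` is `l`. -/
theorem det_torsMat_frobenius {l : ℕ} (hl : l.Prime) (hlp : l ≠ p)
    (A : ValuationSubring Qbar) (hA : A.LiesOverPrime l) (σ : Γℚ) (hσ : A.IsFrobeniusAt σ l) :
    (torsMat hΔ p σ).det = (l : ZMod p) := by
  rw [det_torsMat, LevelDrop.coeff_zero_charpoly]
  haveI := LevelDrop.isElliptic_rat_of_ne_zero hΔ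
  haveI := WeilPairing.isElliptic_qbar (W.map (Int.castRingHom ℚ))
  refine WeilPairing.det_galoisRepModuleEnd_eq_of_forall_pow _ p
    (Nat.cast_ne_zero.mpr (Fact.out : p.Prime).ne_zero) σ l fun ζ hζ => ?_
  rw [GalRep.cyclo_spec p σ (n := 1) (by rwa [pow_one]), GalRep.cyclo_frobenius (p := p) hl hlp hA hσ,
    map_natCast, ZMod.val_natCast, pow_one, ← pow_eq_pow_mod l hζ]

/-- Mazur's principle at a minimal level, for one level. -/
theorem isScalarPrime_of_mazurAt (hp2 : p ≠ 2) (hirr : W.ModRepIsIrreducible p) {M l : ℕ}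
    [NeZero M] [Fact l.Prime] (hmz : MazurAt M l p) (hlp : l ≠ p)
    (hunr : Affine.Point.GaloisRepUnramifiedAt (K := Qbar) ℚ (W.map (Int.castRingHom ℚ)) p l)
    (hmod : W.IsResiduallyModularOfLevel p (M * l)) (hlow : ¬ W.IsResiduallyModularOfLevel p M) :
    IsScalarPrime hΔ p l := by
  have hl : l.Prime := Fact.out
  have hM : 0 < M := Nat.pos_of_neZero M
  have hp : p.Prime := Fact.out
  haveI : NeZero (M * l) := ⟨mul_ne_zero hM.ne' hl.ne_zero⟩
  have hK : M * l * p ≠ 0 := mul_ne_zero (mul_ne_zero hM.ne' hl.ne_zero) hp.ne_zero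
  have hscal : ∀ A : ValuationSubring Qbar, A.LiesOverPrime l → ∀ σ : Γℚ,
      A.IsFrobeniusAt σ l →
        ∃ c : ZMod p, (c = (l : ZMod p) ∨ c = -(l : ZMod p)) ∧ torsMat hΔ p σ = c • 1 := by
    refine hmz (torsMat hΔ p) (span_torsMat_eq_top hΔ p hp2 hirr)
      (exists_fixing_torsMat_eq_one hΔ p) (frobTrace hΔ p)
      (fun k hk hkK => torsMat_of_isResiduallyModularOfLevel hΔ hmod hk
        (fun h => hkK (h.mul_right _)) (fun h => hkK (h ▸ dvd_mul_left p (M * l))))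
      (torsMat_eq_one_of_unramified hΔ p hunr) ?_ ?_ ?_
    · obtain ⟨k, hk, hkS, hne⟩ := exists_frobTrace_ne hΔ p hp2 hirr (M * l * p).primeFactors
      exact ⟨k, hk, fun h => hkS (Nat.mem_primeFactors.2 ⟨hk, h, hK⟩), hne⟩
    · obtain ⟨x, h1, h2, h3⟩ := exists_eigenTorsion_of_isResiduallyModularOfLevel hΔ hmod
      exact ⟨x, h1, h2, fun k hk hkK => h3 k hk (fun h => hkK (h.mul_right _))
        (fun h => hkK (h ▸ dvd_mul_left p (M * l)))⟩
    · intro x hpx hT
      by_contra hx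
      refine hlow (isResiduallyModularOfLevel_of_eigenTorsion hΔ hx hpx {l, p}
        fun k hk hkM hkS => hT k hk fun h => ?_)
      simp only [Finset.mem_insert, Finset.mem_singleton, not_or] at hkS
      rcases hk.dvd_mul.1 h with h' | h'
      · rcases hk.dvd_mul.1 h' with h'' | h''
        · exact hkM h''
        · exact hkS.1 ((Nat.prime_dvd_prime_iff_eq hk hl).1 h'')
      · exact hkS.2 ((Nat.prime_dvd_prime_iff_eq hk hp).1 h')
  -- the determinant forces `l ≡ 1`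
  have hl0 : (l : ZMod p) ≠ 0 := by
    rw [Ne, ZMod.natCast_eq_zero_iff]
    exact fun h => hlp ((Nat.prime_dvd_prime_iff_eq hp hl).1 h).symm
  have h1 : (l : ZMod p) = 1 := by
    obtain ⟨A, σ, hA, hσ⟩ := Frobenius.exists_liesOverPrime_isFrobeniusAt hl
    obtain ⟨c, hc, hρ⟩ := hscal A hA σ hσ
    have h := det_torsMat_frobenius hΔ hl hlp A hA σ hσ
    rw [hρ, Matrix.det_smul, Fintype.card_fin, Matrix.det_one, mul_one] at h
    refine mul_left_cancel₀ hl0 ?_
    rw [mul_one]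
    rcases hc with rfl | rfl <;> linear_combination h
  refine ⟨h1, fun A hA => ⟨torsMat_eq_one_of_unramified hΔ p hunr A hA, fun σ hσ => ?_⟩⟩
  obtain ⟨c, hc, hρ⟩ := hscal A hA σ hσ
  rw [h1] at hc
  rcases hc with rfl | rfl
  · exact Or.inl (by rw [hρ, one_smul])
  · exact Or.inr (by rw [hρ, neg_one_smul])

/-- Mazur's principle at a minimal level. -/
theorem isScalarPrime_of_mazur (hmz : MazurPrinciple) (hp5 : 5 ≤ p)
    (hirr : W.ModRepIsIrreducible p) {M l : ℕ} (hM : 0 < M) (hl : l.Prime) (hlp : l ≠ p)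
    (hlM : ¬ l ∣ M) (hsq : Squarefree M)
    (hunr : Affine.Point.GaloisRepUnramifiedAt (K := Qbar) ℚ (W.map (Int.castRingHom ℚ)) p l)
    (hmod : W.IsResiduallyModularOfLevel p (M * l)) (hlow : ¬ W.IsResiduallyModularOfLevel p M) :
    IsScalarPrime hΔ p l :=
  haveI : NeZero M := ⟨hM.ne'⟩
  haveI : Fact l.Prime := ⟨hl⟩
  isScalarPrime_of_mazurAt hΔ (by omega) hirr (hmz hlp hp5 hlM hsq) hlp hunr hmod hlow

include hΔ in
/-- An unramified prime is not in a minimal level prime to `p`. -/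
theorem not_dvd_of_minimal (hmz : MazurPrinciple) (hL : ScalarLowering W p)
    (hss : W.IsSemistableModel) (hp5 : 5 ≤ p) (hirr : W.ModRepIsIrreducible p) {N q : ℕ}
    (hN : 0 < N) (hsq : Squarefree N) (hpN : ¬ p ∣ N)
    (hmin : ∀ M : ℕ, M ∣ N → M ≠ N → ¬ W.IsResiduallyModularOfLevel p M)
    (hmod : W.IsResiduallyModularOfLevel p N) (hq : q.Prime)
    (hunr : Affine.Point.GaloisRepUnramifiedAt (K := Qbar) ℚ (W.map (Int.castRingHom ℚ)) p q) :
    ¬ q ∣ N := by
  intro hqN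
  have key : ∀ l : ℕ, l.Prime → l ∣ N →
      Affine.Point.GaloisRepUnramifiedAt (K := Qbar) ℚ (W.map (Int.castRingHom ℚ)) p l →
      IsScalarPrime hΔ p l := by
    intro l hl hlN hu
    obtain ⟨M, hM⟩ := hlN
    rw [mul_comm] at hM
    have hlp : l ≠ p := fun h => hpN (by rw [← h, hM]; exact dvd_mul_left l M)
    have hlM : ¬ l ∣ M := fun h => hl.not_isUnit <| hsq l (by
      rw [hM]; exact mul_dvd_mul_right h l)
    have hMN : M ∣ N := hM ▸ dvd_mul_right M l
    have hMpos : 0 < M := Nat.pos_of_dvd_of_pos hMN hN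
    refine isScalarPrime_of_mazur hΔ hmz hp5 hirr hMpos hl hlp hlM
      (hsq.squarefree_of_dvd hMN) hu (hM ▸ hmod) (hmin M hMN fun h => ?_)
    have : M * 1 = M * l := by rw [mul_one, ← hM, h]
    exact hl.ne_one (mul_left_cancel₀ hMpos.ne' this).symm
  refine hL hΔ hss hp5 hirr N q hN hsq hpN hq hqN (key q hq hqN hunr) (fun l hl hlN => ?_)
    hmin hmod
  by_cases hu : Affine.Point.GaloisRepUnramifiedAt (K := Qbar) ℚ (W.map (Int.castRingHom ℚ)) p l
  · exact Or.inl (key l hl hlN hu)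
  · exact Or.inr hu

/-- `S43` from Mazur's principle, lowering at scalar primes and lowering at `p`. -/
theorem freyLowerAwayFromP (P : FreyPackage) (hmz : MazurPrinciple)
    (hL : ScalarLowering P.freyCurveInt P.p) (h44 : Wiring.FreyLowerAtP P) :
    Wiring.FreyLowerAwayFromP P := by
  intro N q hcond hq _ _ _ hirr hmod hunr
  classical
  haveI : Fact P.p.Prime := ⟨P.pp⟩
  have hΔ := Frey.freyCurveInt_Δ_ne_zero P
  have hirr' : P.freyCurveInt.ModRepIsIrreducible P.p := by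
    rw [ModRepIsIrreducible, Frey.freyCurveInt_map]; exact hirr
  have hex : ∃ M : ℕ, M ∣ N ∧ P.ModularRepOfLevel M := ⟨N, dvd_rfl, hmod⟩
  set M₀ := Nat.find hex with hM₀def
  obtain ⟨hM₀N, hM₀⟩ : M₀ ∣ N ∧ P.ModularRepOfLevel M₀ := Nat.find_spec hex
  refine ⟨M₀, hM₀N, ?_, hM₀⟩
  have hM₀pos : 0 < M₀ := Nat.pos_of_dvd_of_pos hM₀N hcond.pos
  have hcond₀ := hcond.of_dvd hM₀N hM₀pos
  have hmin : ∀ M : ℕ, M ∣ M₀ → M ≠ M₀ → ¬ P.ModularRepOfLevel M := fun M hM hne hM' =>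
    hne (le_antisymm (Nat.le_of_dvd hM₀pos hM)
      (Nat.find_min' hex ⟨hM.trans hM₀N, hM'⟩))
  have hpM : ¬ P.p ∣ M₀ := fun hp => by
    obtain ⟨M, hM, hpM', hM'⟩ := h44 hcond₀ hp hirr hM₀
    exact hmin M hM (fun h => hpM' (h ▸ hp)) hM'
  refine not_dvd_of_minimal hΔ hmz hL (Frey.freyCurveInt_isSemistableModel P) P.hp5 hirr'
    hM₀pos hcond₀.squarefree hpM
    (fun M hM hne h' => hmin M hM hne (Wiring.modularRepOfLevel_of_isResiduallyModularOfLevel P h'))
    (isResiduallyModularOfLevel_of_modularRepOfLevel P hM₀pos hM₀) hq ?_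
  rw [Frey.freyCurveInt_map]
  exact hunr

end FLTAgent.LevelLower.Endgame
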