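import Fermat.Agent.GalRep.Specializations
import Fermat.Agent.GalRep.Inputs
import Fermat.Agent.LevelDrop.Residual
import Fermat.Agent.LevelRaise.Galois
import Fermat.Agent.Frobenius.Places
import Fermat.Agent.Wiring.FreyDescent

/-!
# Residual modularity does not depend on the integral model

A congruence with an eigenform at the good primes of one integral model holds at the good primes of
every other one: both mod `p` representations are the same and their traces are determined by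
almost all Frobenius elements.
-/

set_option autoImplicit false
set_option linter.style.haveILetI false

open WeierstrassCurve Polynomial
open scoped WeierstrassCurve.Affine

namespace FLTAgent.LevelLower.Endgame

local notation "Qbar" => AlgebraicClosure ℚ
local notation "Γℚ" => AlgebraicClosure ℚ ≃ₐ[ℚ] AlgebraicClosure ℚ
local notation "Zc" => integralClosure ℤ ℂ

/-- A change of variables gives an equivariant isomorphism on the points. -/
theorem exists_pointEquiv (C : VariableChange ℚ) (W₁ W₂ : Affine ℚ) (hC : C • W₁ = W₂) :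
    ∃ e : Affine.Point (W₁⁄Qbar) ≃+ Affine.Point (W₂⁄Qbar),
      ∀ (σ : Γℚ) (Q : Affine.Point (W₁⁄Qbar)), e (σ • Q) = σ • e Q := by
  have hh : C.map (algebraMap ℚ Qbar) • (W₁⁄Qbar) = (W₂⁄Qbar) := by
    subst hC; exact map_variableChange _ _ _
  let e : Affine.Point (W₁⁄Qbar) ≃+ Affine.Point (W₂⁄Qbar) :=
    (FLTAgent.Reduction.vcEquiv (C.map (algebraMap ℚ Qbar)) (W₁⁄Qbar)).trans
      (FLTAgent.LevelRaise.castPoint hh)
  refine ⟨e, fun σ Q => ?_⟩
  rcases Q with _ | ⟨x, y, hn⟩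
  · change e (σ • (0 : Affine.Point (W₁⁄Qbar))) = σ • e (0 : Affine.Point (W₁⁄Qbar))
    exact (congrArg e (smul_zero σ)).trans ((map_zero e).trans
      ((congrArg (σ • ·) (map_zero e)).trans (smul_zero (A := (W₂⁄Qbar).Point) σ)).symm)
  · rw [Affine.Point.algEquiv_smul_def, Affine.Point.map_some]
    simp only [e, AddEquiv.trans_apply, FLTAgent.Reduction.vcEquiv_some,
      FLTAgent.LevelRaise.castPoint_some]
    rw [Affine.Point.algEquiv_smul_def, Affine.Point.map_some, Affine.Point.some.injEq]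
    constructor <;>
      simp [FLTAgent.Reduction.vcX, FLTAgent.Reduction.vcY, VariableChange.map]

theorem exists_changeOfModel {E : WeierstrassCurve ℚ} {W₁ W₂ : WeierstrassCurve ℤ}
    (h₁ : W₁.IsIntegralModelOf E) (h₂ : W₂.IsIntegralModelOf E) :
    ∃ C : VariableChange ℚ,
      C • W₁.map (Int.castRingHom ℚ) = W₂.map (Int.castRingHom ℚ) := by
  obtain ⟨C₁, e₁⟩ := h₁
  obtain ⟨C₂, e₂⟩ := h₂
  exact ⟨C₂ * C₁⁻¹, by rw [← e₁, mul_smul, inv_smul_smul, e₂]⟩

theorem Δ_ne_zero_of_changeOfModel {W₁ W₂ : WeierstrassCurve ℤ} (hΔ : W₁.Δ ≠ 0)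
    {C : VariableChange ℚ} (hC : C • W₁.map (Int.castRingHom ℚ) = W₂.map (Int.castRingHom ℚ)) :
    W₂.Δ ≠ 0 := by
  intro h
  have h1 : (C • W₁.map (Int.castRingHom ℚ)).Δ = 0 := by rw [hC, map_Δ, h, map_zero]
  rw [variableChange_Δ, map_Δ, eq_intCast, mul_eq_zero] at h1
  rcases h1 with h1 | h1
  · exact pow_ne_zero _ (Units.ne_zero _) h1
  · exact hΔ (Int.cast_eq_zero.1 h1)

variable {p : ℕ} [Fact p.Prime]

/-- The mod `p` representations of two models of a curve have the same characteristic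
polynomials. -/
theorem charpoly_torsRep_eq {W₁ W₂ : WeierstrassCurve ℤ} (h₁ : W₁.Δ ≠ 0) (h₂ : W₂.Δ ≠ 0)
    {C : VariableChange ℚ} (hC : C • W₁.map (Int.castRingHom ℚ) = W₂.map (Int.castRingHom ℚ))
    (σ : Γℚ) :
    LinearMap.charpoly ((LevelDrop.torsRep h₁ p).ρ σ) =
      LinearMap.charpoly ((LevelDrop.torsRep h₂ p).ρ σ) := by
  obtain ⟨e, he⟩ := exists_pointEquiv C _ _ hC
  let T₁ := Submodule.torsionBy ℤ ((W₁.map (Int.castRingHom ℚ))⁄Qbar).toAffine.Point (p : ℤ)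
  let T₂ := Submodule.torsionBy ℤ ((W₂.map (Int.castRingHom ℚ))⁄Qbar).toAffine.Point (p : ℤ)
  have m1 : ∀ x : T₁, e x ∈ T₂ := fun x => by
    have := (Submodule.mem_torsionBy_iff _ _).mp x.2
    rw [Submodule.mem_torsionBy_iff, ← map_zsmul, this, map_zero]
  have m2 : ∀ x : T₂, e.symm x ∈ T₁ := fun x => by
    have := (Submodule.mem_torsionBy_iff _ _).mp x.2
    rw [Submodule.mem_torsionBy_iff, ← map_zsmul, this, map_zero]
  let et : T₁ ≃+ T₂ :=
    { toFun := fun x => ⟨e x, m1 x⟩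
      invFun := fun x => ⟨e.symm x, m2 x⟩
      left_inv := fun x => Subtype.ext (e.symm_apply_apply _)
      right_inv := fun x => Subtype.ext (e.apply_symm_apply _)
      map_add' := fun x y => Subtype.ext (map_add e _ _) }
  let L : (LevelDrop.torsRep h₁ p).V ≃ₗ[ZMod p] (LevelDrop.torsRep h₂ p).V :=
    LinearEquiv.ofBijective (AddMonoidHom.toZModLinearMap p (et : T₁ →+ T₂)) et.bijective
  have hL : (LevelDrop.torsRep h₂ p).ρ σ = L.conj ((LevelDrop.torsRep h₁ p).ρ σ) := by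
    refine LinearMap.ext fun x => ?_
    obtain ⟨y, rfl⟩ := L.surjective x
    rw [LinearEquiv.conj_apply_apply, LinearEquiv.symm_apply_apply]
    exact Subtype.ext (he σ _).symm
  rw [hL, LinearEquiv.charpoly_conj]

/-- The trace of the mod `p` representation of a curve at a Frobenius element of a good prime. -/
theorem trace_torsRep_frobenius {W : WeierstrassCurve ℤ} (hΔ : W.Δ ≠ 0) {ℓ : ℕ} (hℓ : ℓ.Prime)
    (hgood : W.IsGoodPrimeFor ℓ) (hℓp : ℓ ≠ p) (A : ValuationSubring Qbar)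
    (hA : A.LiesOverPrime ℓ) (σ : Γℚ) (hσ : A.IsFrobeniusAt σ ℓ) :
    -(LinearMap.charpoly ((LevelDrop.torsRep hΔ p).ρ σ)).coeff 1 = (W.apOfModel ℓ : ZMod p) := by
  rw [LevelDrop.charpoly_torsRep_frobenius hΔ p hℓ hgood hℓp A hA σ hσ]
  simp [coeff_X_pow]

/-- Residual modularity transfers along a change of model. -/
theorem isResiduallyModularOfLevel_of_changeOfModel {W W₀ : WeierstrassCurve ℤ} (hΔ : W.Δ ≠ 0)
    {C : VariableChange ℚ} (hC : C • W.map (Int.castRingHom ℚ) = W₀.map (Int.castRingHom ℚ))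
    {N : ℕ} (hN : 0 < N) (h : W.IsResiduallyModularOfLevel p N) :
    W₀.IsResiduallyModularOfLevel p N := by
  obtain ⟨f, 𝔪, hf, h𝔪, hpm, hcong⟩ := h
  have hp : p.Prime := Fact.out
  have hΔ₀ := Δ_ne_zero_of_changeOfModel hΔ hC
  have : NeZero N := ⟨hN.ne'⟩
  have := h𝔪
  letI := Ideal.Quotient.field 𝔪
  set φ : Zc →+* Zc ⧸ 𝔪 := Ideal.Quotient.mk 𝔪 with hφ
  have : CharP (Zc ⧸ 𝔪) p := (CharP.charP_iff_prime_eq_zero hp).mpr (by
    rw [← map_natCast φ, Ideal.Quotient.eq_zero_iff_mem]; exact hpm)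
  obtain ⟨ρ, ⟨L, hL, hfix⟩, hfrob, -⟩ := GalRep.exists_matRep_of_eigenform GalRep.frobeniusDense
    (fun N _ p _ S hS => GalRep.matModel_of_specializations GalRep.specializationsExist N p S hS)
    hf (p := p) φ
  let η : ZMod p →+* Zc ⧸ 𝔪 := ZMod.castHom dvd_rfl _
  let G : Γℚ → Zc ⧸ 𝔪 := fun g =>
    η (-(LinearMap.charpoly ((LevelDrop.torsRep hΔ₀ p).ρ g)).coeff 1)
  have key : ∀ g, (ρ g).trace = G g := by
    refine LevelDrop.eq_of_frobenius GalRep.frobeniusDense _ _ ⟨L, hL, fun g σ hag => ?_⟩ ?_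
      (insert p (N * W.Δ.natAbs).primeFactors) fun ℓ hℓ hℓT A hA σ hσ => ?_
    · simp only []
      rw [show σ = g * (g⁻¹ * σ) by group, map_mul,
        hfix _ (GalRep.fixing_of_agree hag).1, mul_one]
    · obtain ⟨L', hL', hfix'⟩ := (LevelDrop.torsRep hΔ₀ p).factorsThroughFiniteLevel
      refine ⟨L', hL', fun g σ hag => ?_⟩
      simp only [G]
      rw [show σ = g * (g⁻¹ * σ) by group, map_mul,
        hfix' _ (GalRep.fixing_of_agree hag).1, mul_one]
    · simp only [Finset.mem_insert, Nat.mem_primeFactors, not_or] at hℓT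
      have hne : N * W.Δ.natAbs ≠ 0 := mul_ne_zero hN.ne' (Int.natAbs_ne_zero.2 hΔ)
      have hℓN : ¬ ℓ ∣ N := fun h => hℓT.2 ⟨hℓ, h.mul_right _, hne⟩
      have hgood : W.IsGoodPrimeFor ℓ := fun h =>
        hℓT.2 ⟨hℓ, (Int.natCast_dvd.1 h).mul_left _, hne⟩
      obtain ⟨a, ha, htr, -⟩ := hfrob ℓ hℓ hℓN hℓT.1 A hA σ hσ
      obtain ⟨b, hb, hbm⟩ := hcong ℓ hℓ hgood hℓN hℓT.1
      obtain rfl : b = a := Subtype.ext (hb.trans ha.symm)
      rw [htr, hφ, Ideal.Quotient.eq.2 hbm, ← hφ, map_intCast]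
      simp only [G]
      rw [← charpoly_torsRep_eq hΔ hΔ₀ hC σ, trace_torsRep_frobenius hΔ hℓ hgood hℓT.1 A hA σ hσ,
        map_intCast]
  refine ⟨f, 𝔪, hf, h𝔪, hpm, fun ℓ hℓ hgood hℓN hℓp => ?_⟩
  obtain ⟨A, σ, hA, hσ⟩ := Frobenius.exists_liesOverPrime_isFrobeniusAt hℓ
  obtain ⟨a, ha, htr, -⟩ := hfrob ℓ hℓ hℓN hℓp A hA σ hσ
  refine ⟨a, ha, ?_⟩
  rw [← Ideal.Quotient.eq, ← hφ, map_intCast, ← htr, key σ]
  simp only [G]
  rw [trace_torsRep_frobenius hΔ₀ hℓ hgood hℓp A hA σ hσ, map_intCast]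

/-- Modularity of the representation of the Frey curve, at its integral model. -/
theorem isResiduallyModularOfLevel_of_modularRepOfLevel (P : FreyPackage) {N : ℕ} (hN : 0 < N)
    (h : P.ModularRepOfLevel N) : P.freyCurveInt.IsResiduallyModularOfLevel P.p N := by
  obtain ⟨f, W, 𝔪, hf, hW, h𝔪, hpm, hcong⟩ := h
  have : Fact P.p.Prime := ⟨P.pp⟩
  obtain ⟨C, hC⟩ := exists_changeOfModel hW (Frey.isIntegralModelOf P)
  have hΔ : W.Δ ≠ 0 := by
    intro h0
    obtain ⟨C', hC'⟩ := exists_changeOfModel (Frey.isIntegralModelOf P) hW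
    exact Δ_ne_zero_of_changeOfModel (Frey.freyCurveInt_Δ_ne_zero P) hC' h0
  exact isResiduallyModularOfLevel_of_changeOfModel hΔ hC hN ⟨f, 𝔪, hf, h𝔪, hpm, hcong⟩

theorem modularRepOfLevel_iff (P : FreyPackage) {N : ℕ} (hN : 0 < N) :
    P.ModularRepOfLevel N ↔ P.freyCurveInt.IsResiduallyModularOfLevel P.p N :=
  ⟨isResiduallyModularOfLevel_of_modularRepOfLevel P hN,
    Wiring.modularRepOfLevel_of_isResiduallyModularOfLevel P⟩

end FLTAgent.LevelLower.Endgame
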