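import Fermat.Agent.LevelLower.Endgame.Dictionary
import Fermat.Agent.Carayol.Rep

/-!
# The matrices of an irreducible mod `p` representation

They span the matrix algebra, and the Frobenius traces are not almost everywhere `1 + ℓ`.
-/

set_option autoImplicit false
set_option linter.style.haveILetI false

open WeierstrassCurve
open scoped WeierstrassCurve.Affine

namespace FLTAgent.LevelLower.Endgame

local notation "Qbar" => AlgebraicClosure ℚ
local notation "Γℚ" => AlgebraicClosure ℚ ≃ₐ[ℚ] AlgebraicClosure ℚ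

/-- A representation with `trace = 1 + det` everywhere does not span. -/
theorem not_hasUnitGram_of_trace_eq {G : Type*} [Monoid G] {K : Type*} [Field K]
    (ρ : G →* Matrix (Fin 2) (Fin 2) K) (h : ∀ g, (ρ g).trace = 1 + (ρ g).det) :
    ¬ Carayol.HasUnitGram ρ := by
  rintro ⟨g, hg⟩
  let L : (Fin 2 × Fin 2 → K) →ₗ[K] K × K :=
    (∑ b, LinearMap.proj b).prod (∑ b, (ρ (g b)).det • LinearMap.proj b)
  have hL : LinearMap.ker L ≠ ⊥ := LinearMap.ker_ne_bot_of_finrank_lt (by simp)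
  obtain ⟨v, hv, hv0⟩ := (Submodule.ne_bot_iff _).1 hL
  refine hg.ne_zero (Matrix.exists_mulVec_eq_zero_iff.1 ⟨v, hv0, ?_⟩)
  rw [LinearMap.mem_ker] at hv
  obtain ⟨h1, h2⟩ := Prod.mk.inj hv
  simp only [LinearMap.sum_apply, LinearMap.smul_apply, LinearMap.proj_apply, smul_eq_mul]
    at h1 h2
  funext a
  calc ∑ b, Carayol.gram ρ g a b * v b
      = ∑ b, v b + (ρ (g a)).det * ∑ b, (ρ (g b)).det * v b := by
        rw [Finset.mul_sum, ← Finset.sum_add_distrib]
        refine Finset.sum_congr rfl fun b _ => ?_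
        show (ρ (g a * g b)).trace * v b = _
        rw [h, map_mul, Matrix.det_mul]
        ring
    _ = 0 := by rw [h1, h2, mul_zero, add_zero]

variable {W : WeierstrassCurve ℤ} (hΔ : W.Δ ≠ 0) (p : ℕ) [Fact p.Prime]

theorem hasUnitGram_torsMat (hp2 : p ≠ 2) (hirr : W.ModRepIsIrreducible p) :
    Carayol.HasUnitGram (torsMat hΔ p) :=
  Carayol.hasUnitGram_of_isAbsolutelyIrreducible (LevelDrop.torsRep hΔ p)
    (LevelDrop.isAbsolutelyIrreducible_torsRep hΔ p hp2 hirr)

theorem span_torsMat_eq_top (hp2 : p ≠ 2) (hirr : W.ModRepIsIrreducible p) :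
    Submodule.span (ZMod p) (Set.range (torsMat hΔ p)) = ⊤ :=
  Carayol.span_eq_top_of_hasUnitGram _ (hasUnitGram_torsMat hΔ p hp2 hirr)

/-- An irreducible `W[p]` is not Eisenstein, at primes avoiding any given finite set. -/
theorem exists_frobTrace_ne (hp2 : p ≠ 2) (hirr : W.ModRepIsIrreducible p) (S₁ : Finset ℕ) :
    ∃ l : ℕ, l.Prime ∧ l ∉ S₁ ∧ (frobTrace hΔ p l : ZMod p) ≠ (l : ZMod p) + 1 := by
  by_contra hcon
  push Not at hcon
  refine not_hasUnitGram_of_trace_eq (torsMat hΔ p) ?_ (hasUnitGram_torsMat hΔ p hp2 hirr)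
  obtain ⟨L, hL, hfix⟩ := exists_fixing_torsMat_eq_one hΔ p
  have hlev : ∀ g σ : Γℚ, (∀ x ∈ L, σ x = g x) → torsMat hΔ p σ = torsMat hΔ p g := by
    intro g σ hag
    rw [show σ = g * (g⁻¹ * σ) by group, map_mul, hfix _ (GalRep.fixing_of_agree hag).1, mul_one]
  refine LevelDrop.eq_of_frobenius GalRep.frobeniusDense _ _
    ⟨L, hL, fun g σ hag => by simp only []; rw [hlev g σ hag]⟩
    ⟨L, hL, fun g σ hag => by simp only []; rw [hlev g σ hag]⟩
    (insert p (W.Δ.natAbs.primeFactors ∪ S₁)) fun l hl hlT A hA σ hσ => ?_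
  simp only [Finset.mem_insert, Finset.mem_union, Nat.mem_primeFactors, not_or] at hlT
  have hgood : W.IsGoodPrimeFor l := fun h =>
    hlT.2.1 ⟨hl, Int.natCast_dvd.1 h, Int.natAbs_ne_zero.2 hΔ⟩
  obtain ⟨h1, h2⟩ := torsMat_frobenius hΔ p hl hgood hlT.1 A hA σ hσ
  have hch := (Frobenius.exists_liesOverPrime_isFrobeniusAt hl).choose_spec.choose_spec
  have h3 := (torsMat_frobenius hΔ p hl hgood hlT.1 _ hch.1 _ hch.2).1
  have h4 := hcon l hl hlT.2.2
  rw [frobTrace, dif_pos hl, ZMod.natCast_val, ZMod.cast_id, h3] at h4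
  rw [h1, h2, h4, add_comm]

/-- An unramified prime acts trivially. -/
theorem torsMat_eq_one_of_unramified {q : ℕ}
    (h : Affine.Point.GaloisRepUnramifiedAt (K := Qbar) ℚ (W.map (Int.castRingHom ℚ)) p q)
    (A : ValuationSubring Qbar) (hA : A.LiesOverPrime q) (σ : Γℚ)
    (hσ : σ ∈ A.inertiaSubgroupIn ℚ) : torsMat hΔ p σ = 1 := by
  have h1 : (LevelDrop.torsRep hΔ p).ρ σ = 1 := LinearMap.ext fun x => h A hA σ hσ x
  show Carayol.matHom (Carayol.resBasis (LevelDrop.torsRep hΔ p)) (LevelDrop.torsRep hΔ p).ρ σ = 1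
  rw [Carayol.matHom_apply, h1, LinearMap.toMatrix_one]

end FLTAgent.LevelLower.Endgame
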